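/-
S17 row, piece G-TORS (helper317): `torsion_finite`, EXACT statement of the row skeleton
(`origin/helper17:Fermat/Agent/S17/Skeleton.lean`, `Skel.torsion_finite`, abbreviation `Qb`
unfolded): the `n`-torsion of `J₀(N)(ℚ̄) = Pic⁰ ℚ̄ (ℚ̄(X₀(N)))` is finite for every `n ≠ 0`.

Adapter on top of the landed unconditional S30 piece FIN
(`Fermat.Agent.S30.H810.torsion_finite : {x : JZero N | m • x = 0}.Finite`).
-/
import Fermat.Agent.S30.H810.Fin

set_option autoImplicit false

noncomputable section

open ModularCurve AlgebraicCurve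

namespace Fermat.Agent.S17.H317

/-- G-TORS. The `n`-torsion of `J₀(N)(ℚ̄)` is finite. -/
theorem torsion_finite (N : ℕ) [NeZero N] (n : ℕ) (hn : n ≠ 0) :
    Finite (Pic0.torsion (AlgebraicClosure ℚ) (modularFunctionFieldBar N) n) := by
  haveI : NeZero n := ⟨hn⟩
  have hfin : {x : JZero N | n • x = 0}.Finite := Fermat.Agent.S30.H810.torsion_finite N n
  have hsub : ((Pic0.torsion (AlgebraicClosure ℚ) (modularFunctionFieldBar N) n :
      AddSubgroup (JZero N)) : Set (JZero N)) ⊆ {x : JZero N | n • x = 0} := by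
    intro x hx
    have h1 : (n : ℤ) • x = 0 := Pic0.mem_torsion.mp hx
    show n • x = 0
    rw [← natCast_zsmul]
    exact h1
  exact (hfin.subset hsub).to_subtype

end Fermat.Agent.S17.H317
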