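import Fermat.Agent.S17.H317.MinorBeta

/-!
# S17 / tower H — WALL leaf **G-MINOR-a** (helper317)

`minorA : Big E → Wall.MinorAStatement E` :
for ANY `L > m²` distinct places `Q_t` and every `a ≠ 0` the matrix of the rows `a X^α`,
`|α| = m - 1`, evaluated at the points `pt (Q t)`, has rank `κ_m = m² - m + 1 - g`.

* `finrank_span_eval_eq` (**RANK-EV**): for forms `p_s` homogeneous of degree `k` and `L > k m`
  distinct places, the rank of the matrix of values `eval (pt (Q t)) (p s)` is the dimension of
  the span of the sections `aeval E.x (p s)`;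
* `prod_L_minf` : `L(m∞)^(e+1) = L((e+1) m∞)` (projective normality, `m ≥ 4g + 1`);
* multiplication by `lin E.x a ≠ 0` is injective.
-/

set_option autoImplicit false
set_option linter.unusedSectionVars false

noncomputable section

open AlgebraicCurve MvPolynomial

namespace Fermat.Agent.S17.H317

open Fermat.Agent.Lib.RR Fermat.Agent.S17.HWall Fermat.Agent.S17.H710 Fermat.Agent.S17.Wall
open Fermat.Agent.S17.H230

variable {K F : Type*} [Field K] [Field F] [Algebra K F] [FF1 K F]

/-- **RANK-EV.**  For forms `p s` homogeneous of degree `k` and `L > k m` distinct places `Q t`,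
the rank of the matrix of values `eval (pt (Q t)) (p s)` equals the dimension of the span of the
sections `aeval E.x (p s)`. -/
theorem finrank_span_eval_eq (E : EmbData K F) {k L : ℕ} (Q : Fin L → Place K F)
    (hQ : Function.Injective Q) (hL : k * E.m < L) {σ : Type*} [Finite σ]
    (p : σ → MvPolynomial (Fin (E.r + 1)) K) (hp : ∀ s, (p s).IsHomogeneous k) :
    Module.finrank K (Submodule.span K (Set.range fun s => fun t => eval (E.pt (Q t)) (p s))) =
      Module.finrank K (Submodule.span K (Set.range fun s => aeval E.x (p s))) := by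
  classical
  haveI := Fintype.ofFinite σ
  have hker : LinearMap.ker (Fintype.linearCombination K
        (fun s => fun t => eval (E.pt (Q t)) (p s))) =
      LinearMap.ker (Fintype.linearCombination K (fun s => aeval E.x (p s))) := by
    ext c
    simp only [LinearMap.mem_ker, Fintype.linearCombination_apply]
    have hGhom : (∑ s, C (c s) * p s : MvPolynomial (Fin (E.r + 1)) K).IsHomogeneous k :=
      IsHomogeneous.sum _ _ _ fun s _ => by
        simpa using (isHomogeneous_C _ (c s)).mul (hp s)
    have h1 : ∀ t, (∑ s, c s • fun t => eval (E.pt (Q t)) (p s)) t =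
        eval (E.pt (Q t)) (∑ s, C (c s) * p s) := by
      intro t
      simp [Finset.sum_apply, map_sum]
    have h2 : ∑ s, c s • aeval E.x (p s) = aeval E.x (∑ s, C (c s) * p s) := by
      simp [map_sum, Algebra.smul_def]
    rw [h2, ← forall_eval_pt_eq_zero_iff E Q hQ hL hGhom]
    constructor
    · intro h t
      rw [← h1, h]
      rfl
    · intro h
      funext t
      rw [h1]
      exact h t
  have hfr := finrank_range_eq_of_ker_eq _ _ hker
  rw [Fintype.range_linearCombination, Fintype.range_linearCombination] at hfr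
  exact hfr

/-- Projective normality: `L(m∞)^(e+1) = L((e+1) m∞)` for `m ≥ 4g + 1`. -/
theorem prod_L_minf [Infinite K] (E : EmbData K F) (hBig : Big E) :
    ∀ e : ℕ, ∏ _i : Fin (e + 1), riemannRochSpace (E.m • prim E.vinf) =
      riemannRochSpace ((e + 1) • (E.m • prim E.vinf) : Divisor K F) := by
  have hB : 4 * genusR K F + 1 ≤ E.m := hBig
  intro e
  induction e with
  | zero => simp
  | succ e ih =>
    rw [Fin.prod_univ_succ, ih, succ_nsmul (E.m • prim E.vinf) (e + 1),
      add_comm ((e + 1) • (E.m • prim E.vinf))]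
    apply H259.L_mul_L
    · rw [emb_degree_minf, genusFF_eq_genusR]
      omega
    · rw [map_nsmul, emb_degree_minf, genusFF_eq_genusR]
      have h1 : (4 * (genusR K F : ℤ)) ≤ (E.m : ℤ) := by omega
      have h2 : (0 : ℤ) ≤ (e : ℤ) := Int.natCast_nonneg e
      simp only [nsmul_eq_mul]
      push_cast
      nlinarith

theorem aeval_linForm {n : ℕ} (x : Fin n → F) (a : Fin n → K) :
    aeval x (linForm a) = lin x a := by
  simp [linForm, lin, Algebra.smul_def]

theorem aeval_monoOrd {n e : ℕ} (x : Fin n → F) (α : Fin e → Fin n) :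
    aeval x (monoOrd (K := K) α) = ∏ k, x (α k) := by
  simp [monoOrd]

/-- The monomials of degree `e` in the `x i` span `(span x)^e`. -/
theorem span_monomials {n : ℕ} (x : Fin n → F) (e : ℕ) :
    Submodule.span K (Set.range fun α : Fin e → Fin n => ∏ k, x (α k)) =
      ∏ _i : Fin e, Submodule.span K (Set.range x) := by
  rw [Submodule.prod_span]
  congr 1
  ext f
  simp only [Set.mem_range, Set.mem_finsetProd]
  constructor
  · rintro ⟨α, rfl⟩
    exact ⟨fun i => x (α i), fun {i} _ => ⟨α i, rfl⟩, rfl⟩
  · rintro ⟨b, hb, rfl⟩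
    choose α hα using fun i => hb (Finset.mem_univ i)
    exact ⟨α, Finset.prod_congr rfl fun i _ => hα i⟩

/-- Multiplication by a nonzero function preserves dimensions. -/
theorem finrank_map_mulLeft {f : F} (hf : f ≠ 0) (V : Submodule K F) :
    Module.finrank K (V.map (LinearMap.mulLeft K f)) = Module.finrank K V :=
  (Submodule.equivMapOfInjective (LinearMap.mulLeft K f)
    (fun _ _ h => mul_left_cancel₀ hf h) V).finrank_eq.symm

/-- **G-MINOR-a.** -/
theorem minorA [Infinite K] (E : EmbData K F) (hBig : Big E) : MinorAStatement E := by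
  classical
  intro L Q hQ hL a ha
  have hB : 4 * genusR K F + 1 ≤ E.m := hBig
  have hf : lin E.x a ≠ 0 := E.lin_ne_zero ha
  -- the forms
  have hp : ∀ τ : Unit × (Fin (E.m - 1) → Fin (E.r + 1)),
      (linForm a * monoOrd τ.2 : MvPolynomial (Fin (E.r + 1)) K).IsHomogeneous E.m := by
    intro τ
    have h := (linForm_isHomogeneous a).mul (monoOrd_isHomogeneous (K := K) τ.2)
    have hm : 1 + (E.m - 1) = E.m := by omega
    rwa [hm] at h
  have hmat : (wMat (e := E.m - 1) (fun _ : Unit => a) fun t => E.pt (Q t)) =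
      fun τ => fun t => eval (E.pt (Q t)) (linForm a * monoOrd τ.2) := by
    funext τ t
    exact wMat_eq_eval _ _ τ t
  rw [hmat, finrank_span_eval_eq E Q hQ hL _ hp]
  -- the span of the sections
  have hspan : Submodule.span K (Set.range fun τ : Unit × (Fin (E.m - 1) → Fin (E.r + 1)) =>
        aeval E.x (linForm a * monoOrd τ.2)) =
      (∏ _i : Fin (E.m - 1), riemannRochSpace (E.m • prim E.vinf)).map
        (LinearMap.mulLeft K (lin E.x a)) := by
    rw [← E.x_span, ← span_monomials E.x (E.m - 1), Submodule.map_span]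
    congr 1
    ext f
    simp only [Set.mem_range, Set.mem_image, map_mul, aeval_linForm, aeval_monoOrd,
      LinearMap.mulLeft_apply]
    constructor
    · rintro ⟨τ, rfl⟩
      exact ⟨_, ⟨τ.2, rfl⟩, rfl⟩
    · rintro ⟨_, ⟨α, rfl⟩, rfl⟩
      exact ⟨((), α), rfl⟩
  rw [hspan, finrank_map_mulLeft hf]
  unfold kapN
  rcases Nat.eq_zero_or_pos (E.m - 1) with h0 | hpos
  · -- `m = 1`, `g = 0`
    have hm1 : E.m = 1 := by omega
    have hg : genusR K F = 0 := by omega
    rw [h0, hm1, hg]
    rw [Fin.prod_univ_zero, Submodule.one_eq_span, finrank_span_singleton one_ne_zero]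
  · obtain ⟨e, he⟩ : ∃ e, E.m - 1 = e + 1 := ⟨E.m - 1 - 1, by omega⟩
    rw [he, prod_L_minf E hBig e]
    have hdeg : Divisor.degree ((e + 1) • (E.m • prim E.vinf) : Divisor K F) =
        ((e + 1 : ℕ) : ℤ) * (E.m : ℤ) := by
      rw [map_nsmul, emb_degree_minf, nsmul_eq_mul]
    have h3 : (4 * (genusR K F : ℤ)) + 1 ≤ (E.m : ℤ) := by exact_mod_cast hB
    have h4 : (0 : ℤ) ≤ (e : ℤ) := Int.natCast_nonneg e
    have hell := ell_eq_of_degree_gt (K := K) (F := F)
      (D := ((e + 1) • (E.m • prim E.vinf) : Divisor K F)) (by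
        rw [hdeg, genusFF_eq_genusR]
        push_cast
        nlinarith)
    rw [hdeg, genusFF_eq_genusR] at hell
    unfold ell at hell
    have hem : E.m = e + 2 := by omega
    have h5 : ((e + 1 : ℕ) : ℤ) * (E.m : ℤ) = ((E.m * E.m : ℕ) : ℤ) - (E.m : ℤ) := by
      rw [hem]; push_cast; ring
    rw [h5] at hell
    have h6 : E.m ≤ E.m * E.m := Nat.le_mul_self E.m
    have h7 : E.m * (4 * genusR K F + 1) ≤ E.m * E.m := Nat.mul_le_mul_left _ hB
    have h8 : E.m * (4 * genusR K F + 1) = 4 * (E.m * genusR K F) + E.m := by ring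
    have h9 : genusR K F ≤ E.m * genusR K F := Nat.le_mul_of_pos_left _ (by omega)
    generalize E.m * E.m = mm at *
    generalize E.m * genusR K F = mg at *
    omega

end Fermat.Agent.S17.H317
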