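/-
S17 row, tower H (heights), wall leaf G2 (helper317): PRODUCTS SPAN
(`origin/helper710:coord/S17-H-L1-helper710.md`, sec. 1 (G2): base-point-free pencil trick).

Setting: `[FF1 K F]` (function field of one variable, all places of degree one), `K` infinite,
`g = genusFF K F`.  All statements are about products of `K`-subspaces of `F`
(`Submodule K F` is a semiring under the product of subspaces).

* `L_mul_L`            : `L(D) * L(E) = L(D + E)` if `deg E ≥ 2g` and `deg (D - E) > 2g - 2`.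
* `L_mul_prod_L`       : for every list `A` of places (coincidences allowed), `deg E ≥ 2g + 1`,
                         `deg B ≥ deg E + 2g - 2`:
                         `L(B) * ∏_{a ∈ A} L(E - a) = L(B + |A| • E - ∑_{a ∈ A} a)`.
* `span_mul_prod_span` : the same with spanning sets: if `S₀` spans `L(B)` and `S a` spans
                         `L(E - a)`, the products `c * b₁ * ⋯ * b_m` span `L(B + m E - ∑ A)`.
* `ell_mul_prod_L`     : the dimension `deg B + m (deg E - 1) + 1 - g`.
-/
import Fermat.Agent.Lib.RR.H439.PencilMul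

set_option autoImplicit false

noncomputable section

open AlgebraicCurve

namespace Fermat.Agent.S17.H317

open Fermat.Agent.Lib.RR

variable {K F : Type*} [Field K] [Field F] [Algebra K F]

/-- `L(D) * L(E) ⊆ L(D + E)`. -/
theorem L_mul_L_le (D E : Divisor K F) :
    riemannRochSpace D * riemannRochSpace E ≤ riemannRochSpace (D + E) := by
  rw [Submodule.mul_le]
  intro x hx y hy
  exact H439.mul_mem_L (B := D + E) (E := E) (by rwa [add_sub_cancel_right]) hy

/-- The divisor `B + m E - ∑ᵢ Aᵢ`. -/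
def prodDiv {m : ℕ} (E B : Divisor K F) (A : Fin m → Place K F) : Divisor K F :=
  B + m • E - ∑ i, prim (A i)

theorem degree_prodDiv [FF1 K F] {m : ℕ} (E B : Divisor K F) (A : Fin m → Place K F) :
    Divisor.degree (prodDiv E B A) = Divisor.degree B + m * (Divisor.degree E - 1) := by
  unfold prodDiv
  rw [map_sub, map_add, map_nsmul, map_sum]
  simp only [degree_prim', Finset.sum_const, Finset.card_univ, Fintype.card_fin, nsmul_eq_mul,
    mul_one]
  ring

theorem prodDiv_succ {m : ℕ} (E B : Divisor K F) (A : Fin (m + 1) → Place K F) :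
    prodDiv E B A = prodDiv E B (fun i : Fin m => A i.succ) + (E - prim (A 0)) := by
  unfold prodDiv
  rw [Fin.sum_univ_succ, succ_nsmul]
  abel

section RR

variable [FF1 K F] [Infinite K]

/-- **Multiplication of Riemann–Roch spaces is onto in large degree**:
`L(D) * L(E) = L(D + E)` if `deg E ≥ 2g` and `deg (D - E) > 2g - 2`. -/
theorem L_mul_L {D E : Divisor K F} (hE : 2 * (genusFF K F : ℤ) ≤ Divisor.degree E)
    (hD : 2 * (genusFF K F : ℤ) - 2 < Divisor.degree (D - E)) :
    riemannRochSpace D * riemannRochSpace E = riemannRochSpace (D + E) := by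
  apply le_antisymm (L_mul_L_le D E)
  intro h hh
  obtain ⟨α₁, hα₁, α₂, hα₂, hα₁0, hα₂0, -, hα⟩ := H439.exists_two_members hE ∅
  obtain ⟨β₁, hβ₁, β₂, hβ₂, rfl⟩ :=
    H439.exists_eq_mul_add_mul hα₁ hα₂ hα₁0 hα₂0 hα hD hh
  exact Submodule.add_mem _ (Submodule.mul_mem_mul hβ₁ hα₁) (Submodule.mul_mem_mul hβ₂ hα₂)

/-- **G2, PRODUCTS SPAN** (subspace form).  For every `m`-tuple of places `A` (coincidences
allowed), `deg E ≥ 2g + 1` and `deg B ≥ deg E + 2g - 2`:
`L(B) * ∏ᵢ L(E - Aᵢ) = L(B + m E - ∑ᵢ Aᵢ)`. -/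
theorem L_mul_prod_L {E B : Divisor K F}
    (hE : 2 * (genusFF K F : ℤ) + 1 ≤ Divisor.degree E)
    (hB : Divisor.degree E + 2 * (genusFF K F : ℤ) - 2 ≤ Divisor.degree B) :
    ∀ {m : ℕ} (A : Fin m → Place K F),
      riemannRochSpace B * ∏ i, riemannRochSpace (E - prim (A i)) =
        riemannRochSpace (prodDiv E B A) := by
  intro m
  induction m with
  | zero =>
    intro A
    simp [prodDiv]
  | succ m ih =>
    intro A
    rw [Fin.prod_univ_succ, mul_left_comm, mul_comm (riemannRochSpace (E - prim (A 0))),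
      ih (fun i : Fin m => A i.succ), prodDiv_succ]
    apply L_mul_L
    · rw [map_sub, degree_prim']
      omega
    · have h1 := degree_prodDiv E B (fun i : Fin m => A i.succ)
      rw [map_sub, h1, map_sub, degree_prim']
      have h2 : (0 : ℤ) ≤ m * (Divisor.degree E - 1) :=
        mul_nonneg (Int.natCast_nonneg m) (by omega)
      omega

omit [Infinite K] in
/-- The dimension of the span of the products. -/
theorem ell_prodDiv {E B : Divisor K F}
    (hE : 2 * (genusFF K F : ℤ) + 1 ≤ Divisor.degree E)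
    (hB : Divisor.degree E + 2 * (genusFF K F : ℤ) - 2 ≤ Divisor.degree B)
    {m : ℕ} (A : Fin m → Place K F) :
    (ell (prodDiv E B A) : ℤ) =
      Divisor.degree B + m * (Divisor.degree E - 1) + 1 - (genusFF K F : ℤ) := by
  rw [← degree_prodDiv E B A]
  apply ell_eq_of_degree_gt
  rw [degree_prodDiv]
  have h2 : (0 : ℤ) ≤ m * (Divisor.degree E - 1) :=
    mul_nonneg (Int.natCast_nonneg m) (by omega)
  omega

open scoped Pointwise in
/-- **G2, PRODUCTS SPAN** (spanning-set form).  If `S₀` spans `L(B)` and `S i` spans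
`L(E - Aᵢ)`, then the products `c * b₁ * ⋯ * b_m` (`c ∈ S₀`, `bᵢ ∈ S i`) span
`L(B + m E - ∑ᵢ Aᵢ)`. -/
theorem span_products {E B : Divisor K F}
    (hE : 2 * (genusFF K F : ℤ) + 1 ≤ Divisor.degree E)
    (hB : Divisor.degree E + 2 * (genusFF K F : ℤ) - 2 ≤ Divisor.degree B)
    {m : ℕ} (A : Fin m → Place K F) {S₀ : Set F} {S : Fin m → Set F}
    (hS₀ : Submodule.span K S₀ = riemannRochSpace B)
    (hS : ∀ i, Submodule.span K (S i) = riemannRochSpace (E - prim (A i))) :
    Submodule.span K {x : F | ∃ c ∈ S₀, ∃ b : Fin m → F, (∀ i, b i ∈ S i) ∧ x = c * ∏ i, b i} =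
      riemannRochSpace (prodDiv E B A) := by
  rw [← L_mul_prod_L hE hB A, ← hS₀]
  simp_rw [← hS]
  rw [Submodule.prod_span, Submodule.span_mul_span]
  congr 1
  ext x
  simp only [Set.mem_ofPred_eq, Set.mem_mul, Set.mem_finsetProd]
  constructor
  · rintro ⟨c, hc, b, hb, rfl⟩
    exact ⟨c, hc, _, ⟨b, fun {i} _ => hb i, rfl⟩, rfl⟩
  · rintro ⟨c, hc, y, ⟨b, hb, rfl⟩, rfl⟩
    exact ⟨c, hc, b, fun i => hb (Finset.mem_univ i), rfl⟩

/-- **G2, PRODUCTS SPAN** (full form): the products `c * b₁ * ⋯ * b_m`, `c ∈ L(B)`,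
`bᵢ ∈ L(E - Aᵢ)`, span `L(B + m E - ∑ᵢ Aᵢ)`. -/
theorem span_products_L {E B : Divisor K F}
    (hE : 2 * (genusFF K F : ℤ) + 1 ≤ Divisor.degree E)
    (hB : Divisor.degree E + 2 * (genusFF K F : ℤ) - 2 ≤ Divisor.degree B)
    {m : ℕ} (A : Fin m → Place K F) :
    Submodule.span K {x : F | ∃ c ∈ riemannRochSpace B, ∃ b : Fin m → F,
        (∀ i, b i ∈ riemannRochSpace (E - prim (A i))) ∧ x = c * ∏ i, b i} =
      riemannRochSpace (prodDiv E B A) :=
  span_products hE hB A (S₀ := (riemannRochSpace B : Set F))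
    (S := fun i => (riemannRochSpace (E - prim (A i)) : Set F))
    (Submodule.span_eq _) (fun _ => Submodule.span_eq _)

end RR

/-! ### Linear algebra: the secant elements `ξⱼ xₖ - ξₖ xⱼ` span the hyperplane `ξ^⊥` -/

section Secant

variable {ι : Type*} [Fintype ι]

/-- The linear form `b ↦ ∑ᵢ bᵢ ξᵢ` on `ι → K`. -/
def dotForm (ξ : ι → K) : (ι → K) →ₗ[K] K where
  toFun b := ∑ i, b i * ξ i
  map_add' b c := by simp [add_mul, Finset.sum_add_distrib]
  map_smul' c b := by simp [Finset.mul_sum, mul_assoc]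

@[simp] theorem dotForm_apply (ξ b : ι → K) : dotForm ξ b = ∑ i, b i * ξ i := rfl

/-- For a family `x : ι → V` and `ξ ≠ 0`, the elements `ξⱼ xₖ - ξₖ xⱼ` span the image of the
hyperplane `{b | ∑ bᵢ ξᵢ = 0}` under `b ↦ ∑ bᵢ xᵢ`. -/
theorem span_secant {V : Type*} [AddCommGroup V] [Module K V] (x : ι → V) (ξ : ι → K)
    (hξ : ξ ≠ 0) :
    Submodule.span K (Set.range fun p : ι × ι => ξ p.1 • x p.2 - ξ p.2 • x p.1) =
      (LinearMap.ker (dotForm ξ)).map (Fintype.linearCombination K x) := by
  classical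
  apply le_antisymm
  · rw [Submodule.span_le]
    rintro _ ⟨⟨j, k⟩, rfl⟩
    refine ⟨ξ j • Pi.single k 1 - ξ k • Pi.single j 1, ?_, ?_⟩
    · simp only [SetLike.mem_coe, LinearMap.mem_ker, dotForm_apply, Pi.sub_apply, Pi.smul_apply,
        smul_eq_mul, sub_mul, Finset.sum_sub_distrib, Pi.single_apply, mul_ite, mul_one,
        mul_zero, ite_mul, zero_mul, Finset.sum_ite_eq', Finset.mem_univ, if_true]
      ring
    · simp only [map_sub, map_smul, Fintype.linearCombination_apply_single, one_smul]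
  · rintro _ ⟨b, hb, rfl⟩
    rw [SetLike.mem_coe, LinearMap.mem_ker, dotForm_apply] at hb
    obtain ⟨j₀, hj₀⟩ : ∃ j₀, ξ j₀ ≠ 0 := by
      by_contra hcon
      simp only [not_exists, not_not] at hcon
      exact hξ (funext hcon)
    have key : Fintype.linearCombination K x b =
        ∑ i, (b i / ξ j₀) • (ξ j₀ • x i - ξ i • x j₀) := by
      rw [Fintype.linearCombination_apply]
      simp only [smul_sub, smul_smul, Finset.sum_sub_distrib]
      have h1 : ∀ i, b i / ξ j₀ * ξ j₀ = b i := fun i => div_mul_cancel₀ _ hj₀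
      simp only [h1]
      rw [← Finset.sum_smul]
      have h2 : ∑ i, b i / ξ j₀ * ξ i = 0 := by
        have : ∑ i, b i / ξ j₀ * ξ i = (∑ i, b i * ξ i) / ξ j₀ := by
          rw [Finset.sum_div]
          exact Finset.sum_congr rfl fun i _ => by ring
        rw [this, hb, zero_div]
      rw [h2, zero_smul, sub_zero]
    rw [key]
    refine Submodule.sum_mem _ fun i _ => Submodule.smul_mem _ _ ?_
    exact Submodule.subset_span ⟨(j₀, i), rfl⟩

end Secant

end Fermat.Agent.S17.H317
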