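import Fermat.Agent.S17.H710.Wall.Defs
import Fermat.Agent.S17.H230.EmbCons
import Fermat.Agent.S17.H317.ProductsSpan
import Fermat.Agent.Lib.RR.H259.Mult

/-!
# S17 / tower H — WALL leaf **G-MINOR-β** (helper317)

`minorBeta : Big E → Wall.MinorBetaStatement E` :
for ANY `L > k m` distinct places `Q_t` and EVERY `k`-tuple `A` of places the matrix
`betaMat (pt ∘ A) (pt ∘ Q)` has rank `κ_k = k m - k + 1 - g`.

Ingredients (all proved here):

* `exists_smul_of_ann_eq` : two vectors with the same annihilator are proportional;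
* `exists_pt_eq_smul` : `E.pt P = c • ptD (m∞) E.x P`, `c ≠ 0` (VALUE DICTIONARY: the abstract
  point of an `EmbData` is the concrete point of values of helper230, up to a scalar);
* `valAt_aeval_of_isHomogeneous` : for `G` homogeneous of degree `k`,
  `eval (ptD D x v) G` is the value at `v` of `aeval x G * unif v ^ (k D(v))`;
* `forall_eval_pt_eq_zero_iff` : for `G` homogeneous of degree `k` and `L > k m` distinct places
  `Q_t`: `(∀ t, eval (pt (Q t)) G = 0) ↔ aeval E.x G = 0`
  (evaluation at `> k m` places is injective on `L(k m ∞)`);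
* `span_secForm` : the secant forms at `pt A` span `L(m∞ - A)`;
* `prod_L_sub_prim` : `∏ᵢ L(m∞ - Aᵢ) = L(k m∞ - ΣAᵢ)` (`Lib/RR/H259.L_mul_L`, `m ≥ 4g + 1`);
* `span_aeval_secProd` : the sections `aeval E.x (secProd (pt ∘ A) s)` span `L(k m∞ - ΣAᵢ)`.
-/

set_option autoImplicit false
set_option linter.unusedSectionVars false

noncomputable section

open AlgebraicCurve MvPolynomial

namespace Fermat.Agent.S17.H317

open Fermat.Agent.Lib.RR Fermat.Agent.S17.HWall Fermat.Agent.S17.H710 Fermat.Agent.S17.Wall
open Fermat.Agent.S17.H230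

variable {K F : Type*} [Field K] [Field F] [Algebra K F]

/-! ### Linear algebra: same annihilator ⇒ proportional -/

/-- Two vectors with the same annihilator are proportional. -/
theorem exists_smul_of_ann_eq {n : ℕ} (u w : Fin n → K) (hw : w ≠ 0)
    (h : ∀ a : Fin n → K, a ≠ 0 → (dot a u = 0 ↔ dot a w = 0)) :
    ∃ c : K, c ≠ 0 ∧ u = c • w := by
  classical
  obtain ⟨j₀, hj₀⟩ : ∃ j₀, w j₀ ≠ 0 := by
    by_contra hcon
    simp only [not_exists, not_not] at hcon
    exact hw (funext hcon)
  have hdot : ∀ (i : Fin n) (z : Fin n → K),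
      dot (w j₀ • Pi.single i 1 - w i • Pi.single j₀ 1) z = w j₀ * z i - w i * z j₀ := by
    intro i z
    simp only [dot, sub_dotProduct, smul_dotProduct, single_one_dotProduct, smul_eq_mul]
  have key : ∀ i, w j₀ * u i = w i * u j₀ := by
    intro i
    by_cases hi : i = j₀
    · subst hi; ring
    · have ha0 : (w j₀ • Pi.single i 1 - w i • Pi.single j₀ 1 : Fin n → K) ≠ 0 := by
        intro h0
        have := congrFun h0 i
        simp only [Pi.sub_apply, Pi.smul_apply, Pi.single_eq_same, smul_eq_mul, mul_one,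
          Pi.single_apply, hi, if_false, mul_zero, sub_zero, Pi.zero_apply] at this
        exact hj₀ this
      have h1 : dot (w j₀ • Pi.single i 1 - w i • Pi.single j₀ 1) w = 0 := by
        rw [hdot]; ring
      have h2 := (h _ ha0).mpr h1
      rw [hdot] at h2
      linear_combination h2
  have hu : u j₀ ≠ 0 := by
    intro hu0
    have hu' : ∀ i, u i = 0 := by
      intro i
      have := key i
      rw [hu0, mul_zero] at this
      exact (mul_eq_zero.mp this).resolve_left hj₀
    have ha0 : (Pi.single j₀ 1 : Fin n → K) ≠ 0 := by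
      intro h0
      have := congrFun h0 j₀
      simp at this
    have h1 : dot (Pi.single j₀ 1) u = 0 := by
      simp only [dot, single_one_dotProduct]
      exact hu' j₀
    have h2 := (h _ ha0).mp h1
    simp only [dot, single_one_dotProduct] at h2
    exact hj₀ h2
  refine ⟨u j₀ / w j₀, div_ne_zero hu hj₀, ?_⟩
  funext i
  simp only [Pi.smul_apply, smul_eq_mul]
  field_simp
  linear_combination key i

variable [FF1 K F]

/-! ### The value dictionary -/

theorem emb_x_mem (E : EmbData K F) (i : Fin (E.r + 1)) :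
    E.x i ∈ riemannRochSpace (E.m • prim E.vinf) := by
  rw [← E.x_span]
  exact Submodule.subset_span ⟨i, rfl⟩

theorem emb_degree_minf (E : EmbData K F) :
    Divisor.degree (E.m • prim E.vinf) = (E.m : ℤ) := by
  rw [map_nsmul, degree_prim']
  simp

/-- The concrete point of values is nonzero (`|m∞|` has no base points). -/
theorem ptD_emb_ne_zero (E : EmbData K F) (P : Place K F) :
    ptD (E.m • prim E.vinf) E.x P ≠ 0 := by
  have hE : 2 * (genusFF K F : ℤ) ≤ Divisor.degree (E.m • prim E.vinf) := by
    rw [emb_degree_minf, genusFF_eq_genusR]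
    have := E.hm
    omega
  obtain ⟨f, hf, hf0, hord⟩ := H439.exists_mem_L_ord_eq hE P
  exact ptD_ne_zero_of_span (emb_x_mem E) (by rw [E.x_span]; exact hf) hf0 hord

/-- **Value dictionary.**  The point `E.pt P` of an embedding datum is, up to a nonzero scalar,
the concrete point of values `ptD (m∞) E.x P`. -/
theorem exists_pt_eq_smul (E : EmbData K F) (P : Place K F) :
    ∃ c : K, c ≠ 0 ∧ E.pt P = c • ptD (E.m • prim E.vinf) E.x P := by
  refine exists_smul_of_ann_eq _ _ (ptD_emb_ne_zero E P) fun a ha => ?_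
  rw [E.pt_spec P a ha]
  have h0 : lin E.x a ≠ 0 := E.lin_ne_zero ha
  rw [hypDiv_apply_of_ne E.vinf E.m h0 P]
  exact (pt_spec_ptD (emb_x_mem E) P a h0).symm

/-- `E.pt P ≠ 0`. -/
theorem emb_pt_ne_zero (E : EmbData K F) (P : Place K F) : E.pt P ≠ 0 := by
  obtain ⟨c, hc, h⟩ := exists_pt_eq_smul E P
  rw [h]
  exact smul_ne_zero hc (ptD_emb_ne_zero E P)

/-! ### Values of polynomials in regular functions -/

theorem regAt_valAt_aeval {ι : Type*} (v : Place K F) (y : ι → F) (hy : ∀ i, RegAt v (y i))
    (p : MvPolynomial ι K) :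
    RegAt v (aeval y p) ∧ valAt v (aeval y p) = eval (fun i => valAt v (y i)) p := by
  induction p using MvPolynomial.induction_on with
  | C a =>
    rw [aeval_C, eval_C]
    exact ⟨regAt_algebraMap v a, valAt_algebraMap v a⟩
  | add p q hp hq =>
    rw [map_add, map_add]
    exact ⟨hp.1.add hq.1, by rw [valAt_add hp.1 hq.1, hp.2, hq.2]⟩
  | mul_X p i hp =>
    rw [map_mul, map_mul, aeval_X, eval_X]
    exact ⟨hp.1.mul (hy i), by rw [valAt_mul hp.1 (hy i), hp.2]⟩

/-- For `G` homogeneous of degree `k` and `x ⊂ L(D)`, the function `aeval x G * π ^ (k D(v))` is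
regular at `v` and its value is `eval (ptD D x v) G`. -/
theorem valAt_aeval_of_isHomogeneous {ι : Type*} {D : Divisor K F} {x : ι → F}
    (hx : ∀ i, x i ∈ riemannRochSpace D) (v : Place K F)
    {G : MvPolynomial ι K} {k : ℕ} (hG : G.IsHomogeneous k) :
    RegAt v (aeval x G * unif v ^ ((k : ℤ) * D v)) ∧
      valAt v (aeval x G * unif v ^ ((k : ℤ) * D v)) = eval (ptD D x v) G := by
  have h1 : aeval (fun i => unif v ^ (D v) * x i) G = (unif v ^ (D v)) ^ k * aeval x G :=
    aeval_mul_of_isHomogeneous hG _ _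
  have hy : ∀ i, RegAt v (unif v ^ (D v) * x i) := fun i => by
    rw [mul_comm]; exact regAt_normD hx v i
  have h2 := regAt_valAt_aeval v _ hy G
  have h3 : aeval x G * unif v ^ ((k : ℤ) * D v) = aeval (fun i => unif v ^ (D v) * x i) G := by
    rw [h1, mul_comm, mul_comm (k : ℤ), zpow_mul, zpow_natCast]
  have h4 : (fun i => valAt v (unif v ^ (D v) * x i)) = ptD D x v := by
    funext i
    rw [ptD_apply, mul_comm]
  rw [h3]
  rw [h4] at h2
  exact h2


/-! ### Evaluation at more than `k m` places is injective -/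

theorem eval_smul_of_isHomogeneous {ι : Type*} {G : MvPolynomial ι K} {k : ℕ}
    (hG : G.IsHomogeneous k) (c : K) (y : ι → K) :
    eval (c • y) G = c ^ k * eval y G := by
  have h := aeval_mul_of_isHomogeneous (S := K) hG c y
  simp only [MvPolynomial.aeval_eq_eval] at h
  exact h

theorem sum_prim_apply_self {L : ℕ} (Q : Fin L → Place K F) (hQ : Function.Injective Q)
    (t₀ : Fin L) : (∑ t, prim (Q t) : Divisor K F) (Q t₀) = 1 := by
  classical
  rw [Finsupp.finsetSum_apply]
  have : ∀ t, (prim (Q t) : Divisor K F) (Q t₀) = if t = t₀ then 1 else 0 := by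
    intro t
    by_cases h : t = t₀
    · subst h; simp
    · rw [if_neg h]
      exact prim_apply_of_ne (fun h' => h (hQ h').symm)
  simp only [this, Finset.sum_ite_eq', Finset.mem_univ, if_true]

theorem sum_prim_apply_of_not_mem {L : ℕ} (Q : Fin L → Place K F) (v : Place K F)
    (hv : ∀ t, Q t ≠ v) : (∑ t, prim (Q t) : Divisor K F) v = 0 := by
  rw [Finsupp.finsetSum_apply]
  exact Finset.sum_eq_zero fun t _ => prim_apply_of_ne (hv t).symm

/-- **Evaluation at `> k m` distinct places is injective on sections of `O(k m ∞)`**: a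
homogeneous polynomial of degree `k` vanishes at the points of `L > k m` distinct places iff
it is a relation of `E.x`. -/
theorem forall_eval_pt_eq_zero_iff (E : EmbData K F) {k L : ℕ} (Q : Fin L → Place K F)
    (hQ : Function.Injective Q) (hL : k * E.m < L)
    {G : MvPolynomial (Fin (E.r + 1)) K} (hG : G.IsHomogeneous k) :
    (∀ t, eval (E.pt (Q t)) G = 0) ↔ aeval E.x G = 0 := by
  have hval : ∀ v : Place K F, ∃ c : K, c ≠ 0 ∧ eval (E.pt v) G =
      c ^ k * valAt v (aeval E.x G * unif v ^ ((k : ℤ) * (E.m • prim E.vinf : Divisor K F) v)) := by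
    intro v
    obtain ⟨c, hc, h⟩ := exists_pt_eq_smul E v
    refine ⟨c, hc, ?_⟩
    rw [h, eval_smul_of_isHomogeneous hG, (valAt_aeval_of_isHomogeneous (emb_x_mem E) v hG).2]
  constructor
  · intro h
    by_contra hf0
    have hmem : aeval E.x G ∈
        riemannRochSpace (k • (E.m • prim E.vinf) - ∑ t, prim (Q t) : Divisor K F) := by
      rw [mem_L_iff]
      intro v
      right
      have hreg := (valAt_aeval_of_isHomogeneous (emb_x_mem E) v hG).1
      have hreg' := hreg
      rw [regAt_iff, ord_mul_unif_zpow v hf0] at hreg'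
      have hkD : ∀ w : Place K F,
          (k • (E.m • prim E.vinf) - ∑ t, prim (Q t) : Divisor K F) w =
            (k : ℤ) * (E.m • prim E.vinf : Divisor K F) w - (∑ t, prim (Q t) : Divisor K F) w := by
        intro w
        rw [Finsupp.sub_apply, Finsupp.smul_apply, nsmul_eq_mul]
      rw [hkD]
      by_cases hv : ∃ t, Q t = v
      · obtain ⟨t, rfl⟩ := hv
        obtain ⟨c, hc, hc'⟩ := hval (Q t)
        rw [h t] at hc'
        have h0 := (mul_eq_zero.mp hc'.symm).resolve_left (pow_ne_zero _ hc)
        rw [valAt_eq_zero_iff hreg] at h0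
        rcases h0 with h0 | h0
        · exact absurd h0 (mul_ne_zero hf0 (zpow_ne_zero _ (unif_ne_zero _)))
        · rw [ord_mul_unif_zpow _ hf0] at h0
          rw [sum_prim_apply_self Q hQ t]
          linarith
      · have hv' : ∀ t, Q t ≠ v := fun t ht => hv ⟨t, ht⟩
        rw [sum_prim_apply_of_not_mem Q v hv']
        linarith
    have hdeg : Divisor.degree (k • (E.m • prim E.vinf) - ∑ t, prim (Q t) : Divisor K F) < 0 := by
      rw [map_sub, map_nsmul, emb_degree_minf, map_sum]
      simp only [degree_prim', Finset.sum_const, Finset.card_univ, Fintype.card_fin, nsmul_eq_mul,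
        mul_one]
      have : ((k * E.m : ℕ) : ℤ) < (L : ℤ) := by exact_mod_cast hL
      push_cast at this
      linarith
    rw [L_eq_bot_of_degree_neg hdeg] at hmem
    exact hf0 ((Submodule.mem_bot K).mp hmem)
  · intro h t
    obtain ⟨c, hc, hc'⟩ := hval (Q t)
    rw [hc', h, zero_mul, valAt_zero, mul_zero]

/-! ### The secant forms span `L(m∞ - A)` -/

theorem aeval_secForm {n : ℕ} (x : Fin n → F) (y : Fin n → K) (p : Fin n × Fin n) :
    aeval x (secForm y p) = y p.1 • x p.2 - y p.2 • x p.1 := by
  simp [secForm, Algebra.smul_def]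

theorem aeval_secProd {n d : ℕ} (x : Fin n → F) (y : Fin d → Fin n → K)
    (s : Fin d → Fin n × Fin n) :
    aeval x (secProd y s) = ∏ i, (y i (s i).1 • x (s i).2 - y i (s i).2 • x (s i).1) := by
  simp [secProd, aeval_secForm]

theorem dot_eq_dotForm {n : ℕ} (ξ b : Fin n → K) : dot b ξ = dotForm ξ b := by
  simp [dot, dotProduct]

/-- The secant elements at the point of `A` span `L(m∞ - A)`. -/
theorem span_secant_emb (E : EmbData K F) (A : Place K F) :
    Submodule.span K (Set.range fun p : Fin (E.r + 1) × Fin (E.r + 1) =>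
        E.pt A p.1 • E.x p.2 - E.pt A p.2 • E.x p.1) =
      riemannRochSpace (E.m • prim E.vinf - prim A) := by
  rw [span_secant E.x (E.pt A) (emb_pt_ne_zero E A)]
  ext f
  constructor
  · rintro ⟨b, hb, rfl⟩
    rw [SetLike.mem_coe, LinearMap.mem_ker, ← dot_eq_dotForm] at hb
    rw [Fintype.linearCombination_apply]
    by_cases hb0 : b = 0
    · subst hb0; simp
    · have h1 := (E.pt_spec A b hb0).mp hb
      have h0 : lin E.x b ≠ 0 := E.lin_ne_zero hb0
      rw [hypDiv_apply_of_ne E.vinf E.m h0 A] at h1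
      have h2 := (mem_L_sub_prim_iff (E.lin_mem b) A).mpr (Or.inr (by omega))
      exact h2
  · intro hf
    have hle : (E.m • prim E.vinf - prim A : Divisor K F) ≤ E.m • prim E.vinf := by
      rw [Finsupp.le_def]
      intro v
      have : (0 : ℤ) ≤ (prim A : Divisor K F) v := by
        by_cases hv : v = A
        · subst hv; simp
        · rw [prim_apply_of_ne hv]
      simp only [Finsupp.coe_sub, Pi.sub_apply]
      omega
    have hf' : f ∈ riemannRochSpace (E.m • prim E.vinf) := L_mono hle hf
    rw [← E.x_span] at hf'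
    obtain ⟨b, rfl⟩ := (Submodule.mem_span_range_iff_exists_fun K).mp hf'
    refine ⟨b, ?_, by rw [Fintype.linearCombination_apply]⟩
    rw [SetLike.mem_coe, LinearMap.mem_ker, ← dot_eq_dotForm]
    by_cases hb0 : b = 0
    · subst hb0; simp [dot]
    · have h0 : lin E.x b ≠ 0 := E.lin_ne_zero hb0
      have h3 := (mem_L_sub_prim_iff (E.lin_mem b) A).mp hf
      have h1 : 0 < hypDiv E.vinf E.m E.x b A := by
        rw [hypDiv_apply_of_ne E.vinf E.m h0 A]
        rcases h3 with h | h
        · exact absurd h h0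
        · have h' : -(E.m • prim E.vinf : Divisor K F) A < A.ord (lin E.x b) := h
          omega
      exact (E.pt_spec A b hb0).mpr h1

/-! ### Products -/

/-- `∏ᵢ L(m∞ - Aᵢ) = L(k m∞ - ΣAᵢ)` for `m ≥ 4g + 1`, `k ≥ 1`. -/
theorem prod_L_sub_prim [Infinite K] (E : EmbData K F) (hBig : Big E) :
    ∀ {k : ℕ} (A : Fin (k + 1) → Place K F),
      ∏ i, riemannRochSpace (E.m • prim E.vinf - prim (A i)) =
        riemannRochSpace (prodDiv (E.m • prim E.vinf) 0 A) := by
  intro k
  have hB : 4 * genusR K F + 1 ≤ E.m := hBig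
  induction k with
  | zero =>
    intro A
    rw [Fin.prod_univ_one]
    congr 1
    simp [prodDiv]
  | succ k ih =>
    intro A
    rw [Fin.prod_univ_succ, ih (fun i => A i.succ), prodDiv_succ (E.m • prim E.vinf) 0 A,
      add_comm (prodDiv (E.m • prim E.vinf) 0 fun i => A i.succ)]
    apply H259.L_mul_L
    · rw [map_sub, emb_degree_minf, degree_prim', genusFF_eq_genusR]
      omega
    · rw [degree_prodDiv, emb_degree_minf, genusFF_eq_genusR, map_zero, zero_add]
      have h1 : (4 * (genusR K F : ℤ)) ≤ (E.m : ℤ) - 1 := by omega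
      have h2 : (0 : ℤ) ≤ (k : ℤ) := Int.natCast_nonneg k
      push_cast
      nlinarith

/-- The sections `aeval E.x (secProd (pt ∘ A) s)` span `L(k m∞ - ΣAᵢ)`. -/
theorem span_aeval_secProd [Infinite K] (E : EmbData K F) (hBig : Big E) {k : ℕ}
    (A : Fin (k + 1) → Place K F) :
    Submodule.span K (Set.range fun s : Fin (k + 1) → Fin (E.r + 1) × Fin (E.r + 1) =>
        aeval E.x (secProd (fun i => E.pt (A i)) s)) =
      riemannRochSpace (prodDiv (E.m • prim E.vinf) 0 A) := by
  rw [← prod_L_sub_prim E hBig A]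
  simp_rw [← span_secant_emb E]
  rw [Submodule.prod_span]
  congr 1
  ext f
  simp only [Set.mem_range, Set.mem_finsetProd, aeval_secProd]
  constructor
  · rintro ⟨s, rfl⟩
    exact ⟨fun i => E.pt (A i) (s i).1 • E.x (s i).2 - E.pt (A i) (s i).2 • E.x (s i).1,
      fun {i} _ => ⟨s i, rfl⟩, rfl⟩
  · rintro ⟨b, hb, rfl⟩
    choose s hs using fun i => hb (Finset.mem_univ i)
    exact ⟨s, Finset.prod_congr rfl fun i _ => hs i⟩

/-! ### The rank -/

theorem finrank_range_eq_of_ker_eq {V W W' : Type*} [AddCommGroup V] [Module K V]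
    [FiniteDimensional K V] [AddCommGroup W] [Module K W] [AddCommGroup W'] [Module K W']
    (f : V →ₗ[K] W) (g : V →ₗ[K] W') (h : LinearMap.ker f = LinearMap.ker g) :
    Module.finrank K (LinearMap.range f) = Module.finrank K (LinearMap.range g) := by
  have h1 := f.finrank_range_add_finrank_ker
  have h2 := g.finrank_range_add_finrank_ker
  rw [h] at h1
  omega

/-- **G-MINOR-β.** -/
theorem minorBeta [Infinite K] (E : EmbData K F) (hBig : Big E) : MinorBetaStatement E := by
  classical
  intro k L Q hk hQ hL A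
  obtain ⟨k, rfl⟩ : ∃ k', k = k' + 1 := ⟨k - 1, by omega⟩
  have hker : LinearMap.ker (Fintype.linearCombination K
        (betaMat (fun i => E.pt (A i)) fun t => E.pt (Q t))) =
      LinearMap.ker (Fintype.linearCombination K
        (fun s : Fin (k + 1) → Fin (E.r + 1) × Fin (E.r + 1) =>
          aeval E.x (secProd (fun i => E.pt (A i)) s))) := by
    ext c
    simp only [LinearMap.mem_ker, Fintype.linearCombination_apply]
    have hGhom : (∑ s, C (c s) * secProd (fun i => E.pt (A i)) s :
        MvPolynomial (Fin (E.r + 1)) K).IsHomogeneous (k + 1) :=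
      IsHomogeneous.sum _ _ _ fun s _ => by
        simpa using (isHomogeneous_C _ (c s)).mul (secProd_isHomogeneous _ s)
    have h1 : ∀ t, (∑ s, c s • betaMat (fun i => E.pt (A i)) (fun t => E.pt (Q t)) s) t =
        eval (E.pt (Q t)) (∑ s, C (c s) * secProd (fun i => E.pt (A i)) s) := by
      intro t
      simp [betaMat_eq_eval, Finset.sum_apply, map_sum]
    have h2 : ∑ s, c s • aeval E.x (secProd (fun i => E.pt (A i)) s) =
        aeval E.x (∑ s, C (c s) * secProd (fun i => E.pt (A i)) s) := by
      simp [map_sum, Algebra.smul_def]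
    rw [h2, ← forall_eval_pt_eq_zero_iff E Q hQ hL hGhom]
    constructor
    · intro h t
      rw [← h1, h]
      rfl
    · intro h
      funext t
      rw [h1]
      exact h t
  have hfr := finrank_range_eq_of_ker_eq _ _ hker
  rw [Fintype.range_linearCombination, Fintype.range_linearCombination] at hfr
  rw [hfr, span_aeval_secProd E hBig A]
  have hB : 4 * genusR K F + 1 ≤ E.m := hBig
  have hdeg : Divisor.degree (prodDiv (E.m • prim E.vinf) 0 A) =
      ((k + 1 : ℕ) : ℤ) * ((E.m : ℤ) - 1) := by
    rw [degree_prodDiv, emb_degree_minf, map_zero, zero_add]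
  have h3 : (4 * (genusR K F : ℤ)) ≤ (E.m : ℤ) - 1 := by omega
  have h4 : (0 : ℤ) ≤ (k : ℤ) := Int.natCast_nonneg k
  have hell := ell_eq_of_degree_gt (K := K) (F := F) (D := prodDiv (E.m • prim E.vinf) 0 A) (by
    rw [hdeg, genusFF_eq_genusR]
    push_cast
    nlinarith)
  rw [hdeg, genusFF_eq_genusR] at hell
  unfold ell at hell
  unfold kapN
  have h5 : (k + 1) * (4 * genusR K F + 1) ≤ (k + 1) * E.m := Nat.mul_le_mul_left _ hB
  have h6 : genusR K F ≤ (k + 1) * genusR K F := Nat.le_mul_of_pos_left _ (Nat.succ_pos k)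
  have h7 : (k + 1) * (4 * genusR K F + 1) = 4 * ((k + 1) * genusR K F) + (k + 1) := by ring
  have h8 : (((k + 1 : ℕ) : ℤ)) * ((E.m : ℤ) - 1) = (((k + 1) * E.m : ℕ) : ℤ) - ((k + 1 : ℕ) : ℤ) := by
    push_cast; ring
  rw [h8] at hell
  generalize (k + 1) * E.m = km at *
  generalize (k + 1) * genusR K F = kg at *
  omega

end Fermat.Agent.S17.H317
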