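/-
S17 row, piece G-TORS, sub-piece P0 (helper317): clearing poles.

`exists_realises_mul_pow` : for every `f ∈ FF N` and `n ≥ 1` there is `t ≠ 0` in `FF N` such that
`f * t ^ n` is realised (`M4b.Realises`) by a good holomorphic function on `ℍ`.
Exact statement of `origin/helper257:Fermat/Agent/S17/GTors/Skeleton.lean` (P0), which is also
`S30.Fin.ClearStatement N n` unfolded.

Proof: `f = r / s` with `r, s ∈ R_N = ℚ̄[j(q^d) : d ∣ N]` (`H997.exists_div_inclRN`), `t := s`,
`f * t ^ n = r * s ^ (n - 1) ∈ R_N`, and elements of `R_N` are realised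
(`H822.exists_realises_of_mem_AK`, i.e. `H882.AK_le_goodQ`).
-/
import Fermat.Agent.S29.M4b.H822.Basic
import Fermat.Agent.S24.Mod.H997Frac

set_option autoImplicit false

noncomputable section

open ModularCurve AlgebraicCurve CongruenceSubgroup UpperHalfPlane
open scoped MatrixGroups Manifold

namespace Fermat.Agent.S17.H317

open Fermat.Agent.S24 Fermat.Agent.S29 Fermat.Agent.S29.M4b

/-- Every element of `R_N = ℚ̄[j(q^d) : d ∣ N]` is realised by a good function. -/
theorem exists_realises_inclRN (N : ℕ) [NeZero N] (r : H997.RN N) :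
    ∃ G : ℍ → ℂ, Realises N (H997.inclRN N r) G :=
  H822.exists_realises_of_mem_AK (N := N) (a := H997.inclRN N r) r.2

/-- P0. For every `f ∈ FF N` and `n ≥ 1` there is `t ≠ 0` such that `f t^n` is realised by a
good (holomorphic) function. -/
theorem exists_realises_mul_pow (N : ℕ) [NeZero N] (n : ℕ) (hn : n ≠ 0) (f : FF N) :
    ∃ (t : FF N) (G : ℍ → ℂ), t ≠ 0 ∧ Realises N (f * t ^ n) G := by
  obtain ⟨r, s, hs, hf⟩ := H997.exists_div_inclRN N f
  have hs' : H997.inclRN N s ≠ 0 := by
    intro h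
    apply hs
    apply H997.inclRN_injective N
    rw [h, map_zero]
  obtain ⟨G, hG⟩ := exists_realises_inclRN N (r * s ^ (n - 1))
  refine ⟨H997.inclRN N s, G, hs', ?_⟩
  have hkey : f * H997.inclRN N s ^ n = H997.inclRN N (r * s ^ (n - 1)) := by
    rw [hf, map_mul, map_pow]
    obtain ⟨m, rfl⟩ : ∃ m, n = m + 1 := Nat.exists_eq_succ_of_ne_zero hn
    rw [Nat.add_sub_cancel, pow_succ]
    field_simp
  rw [hkey]
  exact hG

end Fermat.Agent.S17.H317
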